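-- Row 7: ModularForm.S2_Gamma0_one_eq_zero.
import Fermat.Statements.S08
import Fermat.Agent.MF.SmallLevel

/-!
# No cusp form of weight two and level `Γ₀(1)`

The vanishing criterion of `MF/SmallLevel` at index one. Used by `Top/Endgame` and
`HT/Cusp/UpFricke`.
-/

set_option autoImplicit false
open WeierstrassCurve WeierstrassCurve.Affine WeierstrassCurve.Affine.Point
open CuspForm ModularFormClass UpperHalfPlane
open ModularForm

namespace Fermat.Agent.S08

theorem result (f : CuspForm (CongruenceSubgroup.Gamma0 1) 2) : f = 0 :=
  Fermat.MF.cuspForm_two_eq_zero_of_index_le 1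
    (by rw [Fermat.MF.index_Gamma0_one]; norm_num) f

end Fermat.Agent.S08
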