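-- Row 9: FreyPackage.frey_no_cofixed_small.
import Fermat.Statements.S10
import Fermat.Agent.KUM.Frey

/-!
# No cofixed line for `p` equal to 5, 7 or 13

These exponents have no Frey package at all (`KUM/Frey`): Fermat's Last Theorem for them is
`KUM/Small`, by Sophie Germain and Kummer. Used by `HT/Mazur/MazurFrey`.
-/

set_option autoImplicit false
open WeierstrassCurve WeierstrassCurve.Affine WeierstrassCurve.Affine.Point
open CuspForm ModularFormClass UpperHalfPlane
open FreyPackage

namespace Fermat.Agent.S10

theorem result (P : FreyPackage) (hp : P.p = 5 ∨ P.p = 7 ∨ P.p = 13) : ¬ HasGaloisStableCofixedLine (K := AlgebraicClosure ℚ) ℚ P.freyCurve P.p := by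
  intro _
  rcases hp with h | h | h
  · exact Fermat.KUM.no_freyPackage P Fermat.KUM.flt_five h
  · exact Fermat.KUM.no_freyPackage P Fermat.KUM.flt_seven h
  · exact Fermat.KUM.no_freyPackage P Fermat.KUM.flt_thirteen h

end Fermat.Agent.S10
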