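-- Row 10: FreyPackage.frey_no_cofixed_eleven.
import Fermat.Statements.S11
import Fermat.Agent.KUM.Frey

/-!
# No cofixed line for `p = 11`

Exponent eleven has no Frey package at all (`KUM/Frey`): Fermat's Last Theorem for it is in
`KUM/Small`, by an argument of Kummer type. Used by `HT/Mazur/MazurFrey`.
-/

set_option autoImplicit false
open WeierstrassCurve WeierstrassCurve.Affine WeierstrassCurve.Affine.Point
open CuspForm ModularFormClass UpperHalfPlane
open FreyPackage

namespace Fermat.Agent.S11

theorem result (P : FreyPackage) (hp : P.p = 11) : ¬ HasGaloisStableCofixedLine (K := AlgebraicClosure ℚ) ℚ P.freyCurve P.p := by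
  intro _
  exact Fermat.KUM.no_freyPackage P Fermat.KUM.flt_eleven hp

end Fermat.Agent.S11
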