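-- Row 12: FreyPackage.frey_reducible_hasCofixedLine.
import Fermat.Statements.S13
import Fermat.Agent.EC.Cofixed
import Fermat.Agent.EC.Frey2

/-!
# A reducible Frey representation has a cofixed line

By `EC/Cofixed` a reducible semistable torsion module has a cofixed line or a rational point of
order `p`; the latter is excluded by reduction at two (`EC/Frey2`). Used by `HT/Mazur/MazurFrey`.
-/

set_option autoImplicit false
open WeierstrassCurve WeierstrassCurve.Affine WeierstrassCurve.Affine.Point
open CuspForm ModularFormClass UpperHalfPlane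
open FreyPackage

namespace Fermat.Agent.S13

theorem result (P : FreyPackage) (hred : ¬ GaloisRepIsIrreducible (K := AlgebraicClosure ℚ) ℚ P.freyCurve P.p) : HasGaloisStableCofixedLine (K := AlgebraicClosure ℚ) ℚ P.freyCurve P.p := by
  rw [← Fermat.EC.Frey.map_freyCurveInt] at hred ⊢
  exact Fermat.EC.hasCofixedLine_of_reducible P.freyCurveInt (Fermat.EC.Frey.Δ_ne_zero P) P.pp
    P.hp5 (fun q hq => Fermat.EC.Frey.semistable P hq)
    (fun Q hQ hfix => Fermat.EC.AtTwo.frey_no_rational_torsion P hQ hfix) hred

end Fermat.Agent.S13
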