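-- Row 13: ExtCitation.extVanishingCts_of_three_le.
import Fermat.Statements.S14
import Fermat.Agent.CFT.Herbrand.Extension

/-!
# No admissible extension of `ℤ/p` by `μ_p`

For odd `p` every admissible extension splits: `CFT/Herbrand/Extension`, by Herbrand's theorem on
the `χ⁻¹`-component of the class group. Used by `HT/Mazur/Assemble`.
-/

set_option autoImplicit false
open ExtCitation

namespace Fermat.Agent.S14

theorem result {p : ℕ} [Fact p.Prime] (h3 : 3 ≤ p) :
    ExtCitation.ExtVanishingCts p :=
  Fermat.CFT.AdmExt.extVanishingCts h3

end Fermat.Agent.S14
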