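-- Row 1: fermat_last_theorem.
import Fermat.Statements.S01
import Fermat.Agent.Top.Main
import Fermat.Agent.BAD.XH.Torsion
import Fermat.Agent.BAD.Ord.Torsion

/-!
# Fermat's Last Theorem

The proof follows Frey, Serre, Ribet and Wiles; `NOTES.md` at the root of the repository maps the
libraries.

* `Top/Reduction`: a counterexample gives a Frey package with exponent a prime `p ≥ 5`.
* `HT/Mazur`: the `p`-torsion of the Frey curve is irreducible, by an Eisenstein descent on
  Jacobians of prime level.
* `Top/Modularity`: semistable curves are modular, by lifting at three and five (`GR/RT/Lift`), the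
  switch between three and five (`SW`), and residual modularity at three (`RM`), whose weight one
  input comes from cubic base change descent (`LT`, `LT3`).
* `GR/RT/Lowering`, `BAD/AtP`: level lowering, down to the levels `1` and `2`, where there is no
  cusp form of weight two (`Top/Endgame`).
* `BAD/XH/Torsion`, `BAD/Ord/Torsion`: the torsion of the Jacobians at a prime exactly dividing the
  level, on which lifting and lowering rest.
-/

set_option autoImplicit false

namespace Fermat.Agent.S01

theorem result (n : ℕ) (hn : 3 ≤ n) (a b c : ℕ) (ha : 0 < a) (hb : 0 < b) (hc : 0 < c) : a ^ n + b ^ n ≠ c ^ n :=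
  Fermat.Top.flt_of_torsion
    (fun M q _ _ _ H _ hq hqM => Fermat.BAD.XH.inertiaStatement M q H hq hqM)
    (fun M q _ _ _ H _ hq hqM => Fermat.BAD.XH.frobeniusStatement M q H hq hqM)
    (fun p _ _ => Fermat.BAD.Ord.ordTorsion p) n hn a b c ha hb hc

end Fermat.Agent.S01
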