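-- Row 3: FreyPackage.no_frey_package.
import Fermat.Statements.S03
import Fermat.Agent.S01
import Fermat.Agent.Top.Rows.Inputs
import Fermat.Agent.Top.Rows.NoFrey

/-!
# There is no Frey package

Modularity, Mazur's irreducibility and level lowering leave a normalised eigenform of level one or
two, and there is none: `Top/Rows/NoFrey`, fed with lifting at three and five and the inputs on bad
reduction from `Top/Rows/Inputs`.
-/

set_option autoImplicit false
open FreyPackage

namespace Fermat.Agent.S03

theorem result (P : FreyPackage) : False := by
  have : Fact (Nat.Prime 3) := ⟨Nat.prime_three⟩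
  have : Fact (Nat.Prime 5) := ⟨by norm_num⟩
  exact Fermat.Top.Rows.noFrey_of_inputs (Fermat.Top.Rows.liftingSf 3) (Fermat.Top.Rows.liftingSf 5)
    (fun p _ => Fermat.Top.Rows.newInput p) (Fermat.Top.Rows.ordInput 3) P

end Fermat.Agent.S03
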