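-- Row 4: FreyPackage.frey_isModular.
import Fermat.Statements.S04
import Fermat.Agent.S01
import Fermat.Agent.Top.Rows.Inputs
import Fermat.Agent.Top.Rows.Modular

/-!
# The Frey curve is modular

A special case of the modularity of semistable curves, from `Top/Rows/Modular` with lifting at
three and five and the inputs of `Top/Rows/Inputs`.
-/

set_option autoImplicit false
open WeierstrassCurve WeierstrassCurve.Affine WeierstrassCurve.Affine.Point
open CuspForm ModularFormClass UpperHalfPlane
open FreyPackage

namespace Fermat.Agent.S04

theorem result (P : FreyPackage) : P.freyCurve.IsModular := by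
  have : Fact (Nat.Prime 3) := ⟨Nat.prime_three⟩
  have : Fact (Nat.Prime 5) := ⟨by norm_num⟩
  exact Fermat.Top.Rows.frey_isModular_of_inputs (Fermat.Top.Rows.liftingSf 3)
    (Fermat.Top.Rows.liftingSf 5) (Fermat.Top.Rows.newInput 3) (Fermat.Top.Rows.ordInput 3) P

end Fermat.Agent.S04
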