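-- Row 5: FreyPackage.freyGaloisRep_isUnramifiedAt.
import Fermat.Statements.S05
import Fermat.Agent.S01
import Fermat.Agent.EC.Semistable
import Fermat.Agent.EC.Frey

/-!
# The `p`-torsion of the Frey curve is unramified outside `2 p`

At a prime `q ≠ 2, p` the exponent of `q` in the discriminant is divisible by `p` (`EC/Frey`), so
inertia acts trivially on the `p`-torsion by `EC/Semistable`.
-/

set_option autoImplicit false
open WeierstrassCurve WeierstrassCurve.Affine WeierstrassCurve.Affine.Point
open CuspForm ModularFormClass UpperHalfPlane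
open FreyPackage

namespace Fermat.Agent.S05

theorem result (P : FreyPackage) {q : ℕ} (hq : q.Prime) (hq2 : q ≠ 2) (hqp : q ≠ P.p) : P.GaloisRepUnramifiedAt q := by
  intro A hA σ hσ x
  have key := fun (Q : (Fermat.EC.overQbar P.freyCurveInt).Point) (hQ : P.p • Q = 0) =>
    Fermat.EC.smul_eq_self P.freyCurveInt (A := A) ⟨hq, hA⟩
      (Fermat.EC.Val.isInert_of_mem_inertia hσ)
      (Fermat.EC.Frey.Δ_ne_zero P) (Fermat.EC.Frey.semistable P hq) P.pp
      (by have := P.hp5; omega) hqp (Fermat.EC.Frey.dvd_padicValInt_Δ P hq hq2) (P := Q) hQ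
  unfold Fermat.EC.overQbar at key
  rw [Fermat.EC.Frey.map_freyCurveInt] at key
  apply Subtype.ext
  refine key x.1 ?_
  have := x.2
  rw [Submodule.mem_torsionBy_iff, natCast_zsmul] at this
  exact this

end Fermat.Agent.S05
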