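-- Row 8: FreyPackage.Mazur_Frey.
import Fermat.Statements.S09
import Fermat.Agent.S01
import Fermat.Agent.HT.Mazur.Assemble
import Fermat.Agent.HT.Mazur.AtPOne

/-!
# Mazur: the `p`-torsion of the Frey curve is irreducible

A reducible representation has a cofixed line (S13), which is excluded for `p ≥ 17` by Eisenstein
descent with S14 and for the smaller exponents by S10 and S11: `HT/Mazur/Assemble`, given the
behaviour of `J₀(p)` at `p` proved in `HT/Mazur/AtPOne`.
-/

set_option autoImplicit false
open WeierstrassCurve WeierstrassCurve.Affine WeierstrassCurve.Affine.Point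
open CuspForm ModularFormClass UpperHalfPlane
open FreyPackage

namespace Fermat.Agent.S09

theorem result (P : FreyPackage) : GaloisRepIsIrreducible (K := AlgebraicClosure ℚ) ℚ P.freyCurve P.p :=
  Fermat.HT.Mazur.frey_irreducible_of_atP (fun _ _ _ _ => Fermat.HT.Mazur.atPHyp) P

end Fermat.Agent.S09
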