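-- Row 11: FreyPackage.frey_no_cofixed_large.
import Fermat.Statements.S12
import Fermat.Agent.S01
import Fermat.Agent.HT.Mazur.Assemble
import Fermat.Agent.HT.Mazur.AtPOne

/-!
# No cofixed line for `p ≥ 17`

Mazur's argument on `J₀(p)`, assembled in `HT/Mazur/Assemble`, with the behaviour at `p` from
`HT/Mazur/AtPOne`.
-/

set_option autoImplicit false
open WeierstrassCurve WeierstrassCurve.Affine WeierstrassCurve.Affine.Point
open CuspForm ModularFormClass UpperHalfPlane
open FreyPackage

namespace Fermat.Agent.S12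

theorem result (P : FreyPackage) (hp : 17 ≤ P.p) : ¬ HasGaloisStableCofixedLine (K := AlgebraicClosure ℚ) ℚ P.freyCurve P.p :=
  Fermat.HT.Mazur.frey_no_cofixed_of_atP (fun _ _ _ _ => Fermat.HT.Mazur.atPHyp) P hp

end Fermat.Agent.S12
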