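-- Row 19: CuspForm.finrank_gamma0_weight_two_eq_genusFormula.
import Fermat.Statements.S20
import Fermat.Agent.S01
import Fermat.Agent.MC.X0.DimS2

/-!
# The dimension of the weight two cusp forms on `Γ₀(N)`

It is the genus of the function field of `X₀(N)` over `ℂ` (`MC/X0/DimS2`), hence given by the
classical formula. Used by S16.
-/

set_option autoImplicit false
open CuspForm

namespace Fermat.Agent.S20

theorem result (N : ℕ) [NeZero N] :
    (Module.finrank ℂ (CuspForm (CongruenceSubgroup.Gamma0 N) 2) : ℚ) = ModularCurve.genusFormula N := by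
  have := Fermat.MC.isFunctionField_FN N (RingHom.id ℂ)
  rw [Fermat.MC.finrank_cuspForm_two N]
  exact Fermat.MC.genusFF_FN N (RingHom.id ℂ)

end Fermat.Agent.S20
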