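-- Row 15: ModularCurve.natCard_heckeLatticeAlgebra_quotient_eisensteinIdeal_eq_eisensteinNumerator.
import Fermat.Statements.S16
import Fermat.Agent.S01
import Fermat.Agent.MF.Eisen.Lower
import Fermat.Agent.S20

/-!
# The index of the Eisenstein ideal

In the Hecke algebra of prime level `p` it is the numerator of `(p - 1)/12`, by `MF/Eisen` and the
dimension of the space of cusp forms (S20).
-/

set_option autoImplicit false
open ModularCurve CuspForm
open ModularCurve

namespace Fermat.Agent.S16

theorem result
    (p : ℕ) [Fact p.Prime] :
    Nat.card (↥(heckeLatticeAlgebra p ∅) ⧸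
        Ideal.map ((latticeRestrictHom p ∅).toRingHom.comp (heckeEvalForms p 2))
          (eisensteinIdeal p)) =
      eisensteinNumerator p := by
  have : NeZero p := ⟨(Fact.out : p.Prime).ne_zero⟩
  exact Fermat.MF.Eisen.card_eisensteinQuotient p (le_of_eq (Fermat.Agent.S20.result p).symm)

end Fermat.Agent.S16
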