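-- Row 16: ModularCurve.JZero.addGroup_fg_invariants_rat_of_prime_of_five_le.
import Fermat.Statements.S17
import Fermat.Agent.S01
import Fermat.Agent.HT.MW.Weak

/-!
# Mordell-Weil for `J₀(N)`

The rational points are finitely generated: weak Mordell-Weil and descent in `HT/MW/Weak`, which
works at every level, so the hypotheses on `N` are not used.
-/

set_option autoImplicit false
open ModularCurve AlgebraicCurve
open ModularCurve ModularCurve.JZero

namespace Fermat.Agent.S17

theorem result (N : ℕ) [NeZero N] (hN : N.Prime) (hN5 : 5 ≤ N) :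
    AddGroup.FG ↥(FixedPoints.addSubgroup ((AlgebraicClosure ℚ) ≃ₐ[ℚ] (AlgebraicClosure ℚ)) (JZero N)) :=
  Fermat.HT.MW.fg_ratPts N

end Fermat.Agent.S17
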