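-- Row 20: ModularCurve.periodHomPair_eichlerShimura.
import Fermat.Statements.S21
import Fermat.Agent.S01
import Fermat.Agent.MF.ParabolicDim
import Fermat.Agent.MC.X0.DimS2

/-!
# Eichler-Shimura for `Γ₀(N)`

The period map is injective, and onto the parabolic classes as these form a space of dimension at
most twice the genus (`MF/ParabolicDim`, `MC/X0/DimS2`).
-/

set_option autoImplicit false
open ModularCurve

namespace Fermat.Agent.S21

theorem result (N : ℕ) [NeZero N] :
    Function.Injective (ModularCurve.periodHomPair N)
      ∧ LinearMap.range (ModularCurve.periodHomPair N)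
          = ModularCurve.Period.parabolicHoms ℂ (CongruenceSubgroup.Gamma0 N) ℂ := by
  have := Fermat.MC.isFunctionField_FN N (RingHom.id ℂ)
  refine Fermat.MF.periodHomPair_eichlerShimura N (le_of_eq ?_)
  rw [Fermat.MC.finrank_cuspForm_two N]
  exact (Fermat.MC.genusFF_FN N (RingHom.id ℂ)).symm

end Fermat.Agent.S21
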