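-- Row 21: CuspForm.moduleFinite_heckeAlgebra.
import Fermat.Statements.S22
import Fermat.Agent.S01
import Fermat.Agent.MC.IntStructure

/-!
# The Hecke algebra is finite over `ℤ`

It acts faithfully on the lattice of forms with integral expansions of `MC/IntStructure`.
-/

set_option autoImplicit false
open CuspForm

namespace Fermat.Agent.S22

theorem result (N : ℕ) [NeZero N] (k : ℤ) (S : Set ℕ) :
    Module.Finite ℤ (CuspForm.heckeAlgebra N k S) :=
  Fermat.MC.moduleFinite_heckeAlgebra N k S

end Fermat.Agent.S22
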