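-- Row 22: CuspForm.hasIntegralStructure_two.
import Fermat.Statements.S23
import Fermat.Agent.S01
import Fermat.Agent.MC.IntStructure

/-!
# Forms with integral expansions span the cusp forms

The integral structure on weight two cusp forms of `MC/IntStructure`.
-/

set_option autoImplicit false
open CuspForm

namespace Fermat.Agent.S23

theorem result (N : ℕ) [NeZero N] : CuspForm.HasIntegralStructure N 2 :=
  Fermat.MC.span_intLattice_eq_top N 2

end Fermat.Agent.S23
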