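-- Row 23: ModularCurve.genus_modularFunctionFieldBar_eq_genusFormula.
import Fermat.Statements.S24
import Fermat.Agent.S01
import Fermat.Agent.GR.RatInstances
import Fermat.Agent.MC.X0.Genus

/-!
# The genus of `X₀(N)` over `ℚ̄`

The genus of the Prelude is the genus of the function field, given by the classical formula through
the ramification of `j` in `MC/X0/Genus`.
-/

set_option autoImplicit false
open ModularCurve

namespace Fermat.Agent.S24

theorem result (N : ℕ) [NeZero N]
    [AlgebraicCurve.HasCanonicalDivisor (K := AlgebraicClosure ℚ) (F := ↥(ModularCurve.modularFunctionFieldBar N))] :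
    (AlgebraicCurve.genus (AlgebraicClosure ℚ) ↥(ModularCurve.modularFunctionFieldBar N) : ℚ)
      = ModularCurve.genusFormula N := by
  have ι : AlgebraicClosure ℚ →ₐ[ℚ] ℂ := IsAlgClosed.lift
  have : Fermat.FF.IsFunctionField (AlgebraicClosure ℚ) ↥(Fermat.MC.FN N (AlgebraicClosure ℚ)) :=
    Fermat.MC.isFunctionField_FN N ι.toRingHom
  rw [Fermat.FF.genus_eq_genusFF]
  exact Fermat.MC.genusFF_FN N ι.toRingHom

end Fermat.Agent.S24
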