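-- Row 24: AlgebraicGeometry.RelPicard.exists_representsRelSubPic_algEquivZeroCut_of_isAlgClosed.
import Fermat.Statements.S25
import Fermat.Agent.S01
import Fermat.Agent.PIC.Curve.Exists
import Fermat.Agent.PIC.Global.Charts
import Fermat.Agent.PIC.Proper.Main

/-!
# Jacobians of smooth proper curves

The degree zero relative Picard functor is represented by a smooth, proper and geometrically
connected scheme. The curve has a two-chart model (`PIC/Curve/Exists`); a chart parametrises the
degree `g` divisors in the first chart with given basis of functions, shifted by fixed points and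
`n` times the poles (`PIC/Global/Universal`). For large `n` the charts cover (`exists_cover_bound`,
`PIC/Field/Cover`); gluing gives the scheme (`PIC/Global/Represent`, `PIC/Proper/Main`).
-/

set_option autoImplicit false
universe u
open CategoryTheory CategoryTheory.Limits AlgebraicGeometry AlgebraicGeometry.RelPicard NeronModelInfra
  GoodReductionJacobian
open AlgebraicGeometry AlgebraicGeometry.RelPicard

namespace Fermat.Agent.S25

theorem result
    (k : Type u) [Field k] [IsAlgClosed k] {C : Scheme.{u}} (c : C ⟶ Spec (CommRingCat.of k))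
    [IsProper c] [SmoothOfRelativeDimension 1 c] [IsIntegral C]
    (ε : SchemeHomOver (𝟙 (Spec (CommRingCat.of k))) c) :
    ∃ D : RelativePic0Designation k c,
      Nonempty (RepresentsRelSubPic c ε (algEquivZeroCut c ε) D) ∧
        Smooth D.toBase ∧ IsProper D.toBase ∧ GeometricallyConnected D.toBase := by
  obtain ⟨M⟩ := Fermat.PIC.nonempty_curveModel (c := c) ε
  obtain ⟨n₀, hn₀⟩ := Fermat.PIC.Datum.exists_cover_bound M.G
  let n := max n₀ M.G.genus
  have hg : M.G.genus ≤ n * M.G.deg :=
    le_trans (le_max_right n₀ _) (Nat.le_mul_of_pos_right n M.G.deg_pos)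
  have he : n * M.G.deg - M.G.genus + M.G.genus = n * M.G.deg := Nat.sub_add_cancel hg
  obtain ⟨D, h, -, -, -, -, hQ⟩ := Fermat.PIC.exists_represents
    (X := fun i : Fermat.PIC.ChartIdx M.G (n * M.G.deg - M.G.genus) n ↦ i.scheme)
    (x := fun i ↦ i.str) (U := fun i ↦ M.chartRig i)
    (fun i ↦ M.fibrewiseAlgEquivZero_chartRig i he) M Fermat.PIC.isLocalCondition_algEquivZeroCut
    M.chartsUnique M.chartsOpen
    (M.chartsCover (fun K _ _ D hD ↦ hn₀ K D hD n (le_max_left n₀ _)) he)
  have hsm : Smooth D.toBase := hQ @Smooth inferInstance fun i ↦ i.smooth_str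
  exact ⟨D, ⟨h⟩, hsm, M.isProper_represent h, M.geometricallyConnected_represent h⟩

end Fermat.Agent.S25
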