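-- Row 25: GoodReductionJacobian.RelativeGroupLaw.natCard_isTorsionPoint_eq_pow_of_natCast_ne_zero.
import Fermat.Statements.S26
import Fermat.Agent.S01
import Fermat.Agent.AV.Main

/-!
# Torsion of an abelian scheme over an algebraically closed field

There are `n ^ (2 g)` points killed by an invertible `n`, by the degree of multiplication by `n`
from `AV/Main`.
-/

set_option autoImplicit false
open CategoryTheory CategoryTheory.Limits AlgebraicGeometry NeronModelInfra GoodReductionJacobian
universe u
open GoodReductionJacobian GoodReductionJacobian.RelativeGroupLaw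

namespace Fermat.Agent.S26

theorem result
    (K : Type u) [Field K] [IsAlgClosed K] {A : Scheme.{u}} (f : A ⟶ Spec (CommRingCat.of K))
    (L : RelativeGroupLaw K f) (hc : L.IsCommutative) (hA : AbelianSchemePropertyBundle K f)
    (g : ℕ) [SmoothOfRelativeDimension g f] (n : ℕ) (hn : (n : K) ≠ 0) :
    Nat.card {x : SchemeHomOver (𝟙 (Spec (CommRingCat.of K))) f //
        L.IsTorsionPoint (𝟙 (Spec (CommRingCat.of K))) n x} = n ^ (2 * g) := by
  have := hA.proper
  have := Fermat.AV.connectedSpace_of_bundle hA
  have := Fermat.AV.isIntegral_of_smooth (f := f) g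
  exact Fermat.AV.natCard_isTorsionPoint_eq_pow L hc hA g hn

end Fermat.Agent.S26
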