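-- Row 26: AlgebraicCurve.Pic0.natCard_torsion_pow_eq_pow_two_mul_genusFF_mul_of_charZero.
import Fermat.Statements.S27
import Fermat.Agent.S01
import Fermat.Agent.JAC.TorsionCount

/-!
# Torsion of the divisor classes of a curve in characteristic zero

There are `ℓ ^ (2 g k)` classes of degree zero killed by `ℓ ^ k`, by `JAC/TorsionCount`.
-/

set_option autoImplicit false
open AlgebraicCurve
open AlgebraicCurve AlgebraicCurve.Pic0

namespace Fermat.Agent.S27

theorem result
    (K F : Type*) [Field K] [Field F] [Algebra K F] [IsAlgClosed K] [CharZero K]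
    [IsCurveOver K F] [Algebra.EssFiniteType K F]
    (ℓ : ℕ) [Fact ℓ.Prime] (k : ℕ) :
    Nat.card (Pic0.torsion K F (ℓ ^ k)) = ℓ ^ (2 * genusFF K F * k) := by
  have := Fermat.FF.isFunctionField_of_isCurveOver (K := K) (F := F)
  rw [Fermat.JAC.natCard_torsion (ℓ ^ k) (pow_ne_zero _ (Fact.out : ℓ.Prime).ne_zero),
    ← pow_mul, mul_comm]

end Fermat.Agent.S27
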