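-- Row 27: ModularCurve.IgusaScheme.isIntegral_pullback_igusaTo_of_charP.
import Fermat.Statements.S28
import Fermat.Agent.S01
import Fermat.Agent.RED.Igusa

/-!
# The fibre of the Igusa model at `ℓ ∤ N` is integral

Both charts stay domains in characteristic `ℓ` and meet: `RED/Igusa`.
-/

set_option autoImplicit false
open AlgebraicGeometry CategoryTheory CategoryTheory.Limits ModularCurve ModularCurve.IgusaScheme
noncomputable section
open ModularCurve ModularCurve.IgusaScheme

namespace Fermat.Agent.S28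

theorem result
    (N : ℕ) [NeZero N] (ℓ : ℕ) [Fact ℓ.Prime] (hℓN : ¬ ℓ ∣ N)
    (K : Type) [Field K] [CharP K ℓ] [Algebra ↥(GaloisRep.ratLocalizedAt ℓ) K] :
    IsIntegral ↑(pullback (igusaTo N ℓ)
      (Spec.map (CommRingCat.ofHom (algebraMap ↥(GaloisRep.ratLocalizedAt ℓ) K)))) :=
  Fermat.RED.Igusa.isIntegral_fibre ℓ K hℓN

end Fermat.Agent.S28
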