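-- Row 28: CuspForm.IsNormalizedEigenform.exists_residualGaloisRep_isAttachedTo.
import Fermat.Statements.S29
import Fermat.Agent.S01
import Fermat.Agent.GR.ES.HasInput

/-!
# Residual representations attached to eigenforms

`exists_residualGaloisRep_of_input` of `GR/ES/Assembly`, fed with the Eichler-Shimura input of
`GR/ES/HasInput` (the Tate module of `J₀(N)` with its congruence relation).
-/

set_option autoImplicit false
open CuspForm CuspForm.IsNormalizedEigenform

namespace Fermat.Agent.S29

theorem result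
    {N : ℕ} {g : CuspForm (CongruenceSubgroup.Gamma0 N) 2} (hg : g.IsNormalizedEigenform)
    {p : ℕ} (hp : p.Prime) {k : Type} [Field k] [CharP k p]
    (φ : integralClosure ℤ ℂ →+* k) :
    ∃ ρ : ResidualGaloisRep k, ρ.IsAttachedTo g φ ∧
      ∀ ℓ : ℕ, ℓ.Prime → ¬ ℓ ∣ N * p → ρ.IsUnramifiedAt ℓ :=
  Fermat.GR.exists_residualGaloisRep_of_input Fermat.GR.hasESInput hg hp φ

end Fermat.Agent.S29
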