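-- Row 33: CuspForm.HeckeGaloisRepDatum.isUnipotentOnInertiaAt_of_dvd_of_not_sq_dvd.
import Fermat.Statements.S34
import Fermat.Agent.S01
import Fermat.Agent.HT.Unipotent
import Fermat.Agent.GR.ES.HasInput
import Fermat.Agent.BAD.X0.Torsion

/-!
# Unipotent inertia at a prime exactly dividing the level

Inertia at `q` is unipotent of exponent two on the torsion of `J₀(N)` (`BAD/X0/Torsion`); by
`HT/Unipotent` it is so on Hecke representations.
-/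

set_option autoImplicit false
open IsLocalRing
open CuspForm CuspForm.HeckeGaloisRepDatum

namespace Fermat.Agent.S34

/-- Inertia at a prime exactly dividing the level is unipotent of exponent two on the torsion of
`p`-power order, `p` another prime. -/
theorem inertiaSq_of_exact {N p q : ℕ} [NeZero N] (hq : q.Prime) (hqp : q ≠ p) (hp : p.Prime)
    (hqN : q ∣ N) (hq2 : ¬ q ^ 2 ∣ N) (P : ValuationSubring (AlgebraicClosure ℚ))
    (hP : P.LiesOverPrime q) (σ : AlgebraicClosure ℚ ≃ₐ[ℚ] AlgebraicClosure ℚ)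
    (hσ : σ ∈ P.inertiaSubgroupIn ℚ) : Fermat.HT.Unip.InertiaSq N p σ := by
  have : Fact q.Prime := ⟨hq⟩
  have : NeZero q := ⟨hq.ne_zero⟩
  obtain ⟨M, rfl⟩ : ∃ M, N = M * q := ⟨N / q, (Nat.div_mul_cancel hqN).symm⟩
  have : NeZero M := ⟨fun h => NeZero.ne (M * q) (by rw [h, zero_mul])⟩
  have hqM : ¬ q ∣ M := fun h => hq2 (by rw [pow_two]; exact Nat.mul_dvd_mul_right h q)
  rintro x ⟨n, hn⟩
  exact Fermat.BAD.X0.inertia_smul_sub hq hqM hP hσ (n := p ^ n)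
    (fun h => hqp ((Nat.prime_dvd_prime_iff_eq hq hp).mp (hq.dvd_of_dvd_pow h))) hn

theorem result
    {𝒪 : Type} [CommRing 𝒪] [IsDomain 𝒪] [IsDiscreteValuationRing 𝒪]
    [IsAdicComplete (maximalIdeal 𝒪) 𝒪] [Finite (ResidueField 𝒪)] [CharZero 𝒪]
    {p : ℕ} (hp : p.Prime) (hp𝒪 : (p : 𝒪) ∈ maximalIdeal 𝒪)
    {N : ℕ} [NeZero N] {S : Finset ℕ} (hpS : p ∈ S) (hNS : ∀ q : ℕ, q.Prime → q ∣ N → q ∈ S)
    {θ : CuspForm.heckeAlgebra N 2 (↑S : Set ℕ) →+* ResidueField 𝒪}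
    {T : Type} [CommRing T] [IsLocalRing T] [IsNoetherianRing T]
    [IsAdicComplete (maximalIdeal T) T] [Algebra 𝒪 T] [IsLocalHom (algebraMap 𝒪 T)]
    [Module.Finite 𝒪 T] [Module.Free 𝒪 T]
    (H : CuspForm.HeckeGaloisRepDatum N (↑S : Set ℕ) 𝒪 θ T)
    (q : ℕ) (hq : q.Prime) (hqp : q ≠ p) (hqN : q ∣ N) (hq2 : ¬ q ^ 2 ∣ N) :
    H.ρ.IsUnipotentOnInertiaAt q := by
  have : Fact p.Prime := ⟨hp⟩
  obtain ⟨D₀⟩ := Fermat.GR.hasESInput N p
  exact Fermat.HT.Unip.isUnipotentOnInertiaAt_of_inertiaSq D₀ hp𝒪 hpS hNS H hq hqp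
    (inertiaSq_of_exact hq hqp hp hqN hq2)

end Fermat.Agent.S34
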