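-- Row 37: WeierstrassCurve.isResiduallyModularOfLevel_div_of_isUnramifiedAt_sqf.
import Fermat.Statements.S38
import Fermat.Agent.S01
import Fermat.Agent.SW.Serre.Surjective
import Fermat.Agent.Top.Rows.LowerCurve

/-!
# Ribet: level lowering at a prime other than `p`

For a semistable curve with irreducible `p`-torsion an unramified prime leaves the squarefree level
of residual modularity: the torsion representation is surjective by Serre's argument
(`SW/Serre/Surjective`), so `Top/Rows/LowerCurve` applies.
-/

set_option autoImplicit false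
open WeierstrassCurve WeierstrassCurve.Affine WeierstrassCurve.Affine.Point
open WeierstrassCurve

namespace Fermat.Agent.S38

theorem result
    (p : ℕ) [Fact p.Prime] (_hp2 : p ≠ 2) (W : WeierstrassCurve ℤ) (_hΔ : W.Δ ≠ 0)
    (_hW : W.IsSemistableModel)
    (hcard₁ : Nat.card (Submodule.torsionBy ℤ
      ((W.map (Int.castRingHom ℚ))⁄(AlgebraicClosure ℚ)).Point p) = p ^ 2)
    (hker : GaloisFactorsThroughFiniteLevel
      (WeierstrassCurve.Affine.Point.galoisRepModuleEnd (K := AlgebraicClosure ℚ) ℚ
        (W.map (Int.castRingHom ℚ)) p))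
    (_hirr : W.ModRepIsIrreducible p) (M q : ℕ) (hq : q.Prime) (hqp : q ≠ p)
    (hqM : q ∣ M) (hq2 : ¬ q ^ 2 ∣ M) (hM : Squarefree M)
    (hunr : ((W.map (Int.castRingHom ℚ)).residualGaloisRepOf p hcard₁ hker).IsUnramifiedAt q)
    (hres : W.IsResiduallyModularOfLevel p M) :
    W.IsResiduallyModularOfLevel p (M / q) :=
  Fermat.Top.Rows.residuallyModular_div_of_surjective _hp2 _hΔ _hW
    (Fermat.SW.Serre.surjective_tRep_odd _hΔ _hW _hp2 _hirr) hq hqp hqM hM hunr hres

end Fermat.Agent.S38
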