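-- Row 40: FreyPackage.eigenformResidualAttachmentAtFamily.
import Fermat.Statements.S42
import Fermat.Agent.S01
import Fermat.Agent.GR.ES.HasInput

/-!
# Residual attachment for the Frey package at every level

`eigenformResidualAttachmentAt_of_input` of `GR/ES/Assembly`, fed with the Eichler-Shimura input
of `GR/ES/HasInput` (the Tate module of `J₀(N)` with its congruence relation).
-/

set_option autoImplicit false
open FreyPackage

namespace Fermat.Agent.S42

theorem result (P : FreyPackage) :
    ∀ M : ℕ, 0 < M → P.EigenformResidualAttachmentAt M :=
  Fermat.GR.eigenformResidualAttachmentAt_of_input Fermat.GR.hasESInput P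

end Fermat.Agent.S42
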