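-- Row 37: FreyPackage.level_lowering_odd_prime_of_conductorLevel.
import Fermat.Statements.S43
import Fermat.Agent.S01
import Fermat.Agent.Top.Rows.Inputs
import Fermat.Agent.Top.Rows.Lowering

/-!
# Level lowering for the Frey curve at an odd prime

A prime `q ≠ 2, p` leaves the conductor level: `Top/Rows/Lowering` with the input on bad
reduction. The torsion is always unramified at such `q` (S05), so neither that hypothesis nor
`q ∣ N` is used.
-/

set_option autoImplicit false
open WeierstrassCurve WeierstrassCurve.Affine WeierstrassCurve.Affine.Point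
open CuspForm ModularFormClass UpperHalfPlane
open FreyPackage

namespace Fermat.Agent.S43

theorem result (P : FreyPackage) {N q : ℕ} (hcond : P.IsConductorLevel N) (hq : q.Prime) (hq2 : q ≠ 2) (hqp : q ≠ P.p) (hqN : q ∣ N) (hirr : GaloisRepIsIrreducible (K := AlgebraicClosure ℚ) ℚ P.freyCurve P.p) (hmod : P.ModularRepOfLevel N) (hunr : P.GaloisRepUnramifiedAt q) : ∃ M : ℕ, M ∣ N ∧ ¬ q ∣ M ∧ P.ModularRepOfLevel M := by
  have := Fact.mk P.pp
  exact Fermat.Top.Rows.lowering_odd_of_newInput P (Fermat.Top.Rows.newInput P.p) hcond hq hq2 hqp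
    hirr hmod

end Fermat.Agent.S43
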