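-- Row 38: FreyPackage.level_lowering_at_p_of_conductorLevel.
import Fermat.Statements.S44
import Fermat.Agent.S01
import Fermat.Agent.Top.Rows.Inputs
import Fermat.Agent.Top.Rows.Lowering

/-!
# Level lowering for the Frey curve at `p`

The prime `p` leaves the conductor level: `Top/Rows/Lowering` with the input on bad reduction.
That `p` divides the level is not used.
-/

set_option autoImplicit false
open WeierstrassCurve WeierstrassCurve.Affine WeierstrassCurve.Affine.Point
open CuspForm ModularFormClass UpperHalfPlane
open FreyPackage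

namespace Fermat.Agent.S44

theorem result (P : FreyPackage) {N : ℕ} (hcond : P.IsConductorLevel N) (hpN : P.p ∣ N) (hirr : GaloisRepIsIrreducible (K := AlgebraicClosure ℚ) ℚ P.freyCurve P.p) (hmod : P.ModularRepOfLevel N) : ∃ M : ℕ, M ∣ N ∧ ¬ P.p ∣ M ∧ P.ModularRepOfLevel M := by
  have := Fact.mk P.pp
  exact Fermat.Top.Rows.lowering_at_p_of_newInput P (Fermat.Top.Rows.newInput P.p)
    hcond hirr hmod

end Fermat.Agent.S44
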