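-- Row 41: FreyPackage.level_lowering_to_two.
import Fermat.Statements.S45
import Fermat.Agent.S01
import Fermat.Agent.Top.Rows.Inputs
import Fermat.Agent.Top.Rows.NoFrey

/-!
# A cusp form of level two from a modular Frey curve

It holds as there is no Frey package at all (`Top/Rows/NoFrey`); the two hypotheses on the curve
are not used.
-/

set_option autoImplicit false
open WeierstrassCurve WeierstrassCurve.Affine WeierstrassCurve.Affine.Point
open CuspForm ModularFormClass UpperHalfPlane
open FreyPackage

namespace Fermat.Agent.S45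

theorem result (P : FreyPackage) (hmod : P.freyCurve.IsModular) (hirr : GaloisRepIsIrreducible (K := AlgebraicClosure ℚ) ℚ P.freyCurve P.p) : ∃ f : CuspForm (CongruenceSubgroup.Gamma0 2) 2, f ≠ 0 := by
  have : Fact (Nat.Prime 3) := ⟨Nat.prime_three⟩
  have : Fact (Nat.Prime 5) := ⟨by norm_num⟩
  exact (Fermat.Top.Rows.noFrey_of_inputs (Fermat.Top.Rows.liftingSf 3)
    (Fermat.Top.Rows.liftingSf 5) (fun p _ => Fermat.Top.Rows.newInput p)
    (Fermat.Top.Rows.ordInput 3) P).elim

end Fermat.Agent.S45
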