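-- Row 42: FLT.No2BridgeWiring.weightOneNewformExists_not_cube_dvd.
import Fermat.Statements.S46
import Fermat.Agent.S01
import Fermat.Agent.Top.Rows.Inputs
import Fermat.Agent.Top.Rows.WeightOne

/-!
# A realised eigensystem modulo three for a semistable curve

The congruent system with the character of conductor three in the integral lattice, from the
modularity of all semistable curves (`Top/Rows/WeightOne`), so irreducibility at three is not used.
-/

set_option autoImplicit false
open WeierstrassCurve CuspForm EisensteinWeightOne FormalHecke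
open FLT FLT.No2BridgeWiring

namespace Fermat.Agent.S46

theorem result :
    ∀ W : WeierstrassCurve ℤ, W.Δ ≠ 0 → W.IsSemistableModel → W.ModRepIsIrreducible 3 →
      ∃ (N : ℕ) (_ : NeZero N) (a : ℕ → ℤ),
        CuspForm.HasIntegralBasis N ∧
        FormalHecke.IsEigensystem
          (fun ℓ => if ℓ ∣ N then 0 else ((chiNegThree ℓ : ℤ) : ℤ)) a ∧
        CuspForm.IsLatticeRealized N a ∧
        (∀ q : ℕ, q.Prime → q ≠ 3 → ¬ q ^ 3 ∣ N) ∧
        ∀ ℓ : ℕ, ℓ.Prime → W.IsGoodPrimeFor ℓ → ¬ ℓ ∣ N → ℓ ≠ 3 →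
          (3 : ℤ) ∣ (a ℓ - W.apOfModel ℓ) := by
  have : Fact (Nat.Prime 3) := ⟨Nat.prime_three⟩
  have : Fact (Nat.Prime 5) := ⟨by norm_num⟩
  exact fun W hΔ hW _ => Fermat.Top.Rows.weightOne_of_inputs (Fermat.Top.Rows.liftingSf 3)
    (Fermat.Top.Rows.liftingSf 5)
    (Fermat.Top.Rows.newInput 3) (Fermat.Top.Rows.ordInput 3) W hΔ hW

end Fermat.Agent.S46
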