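-- Row 42: LanglandsTunnell.exists_isWeightOneChiNegThreeRealized_eq_trace_lift.
import Fermat.Statements.S47
import Fermat.Agent.S01
import Fermat.Agent.LTG.Hyp.Main
import Fermat.Agent.LTG.Sys.SysProof
import Fermat.Agent.LTG.Theta.Statement
import Fermat.Agent.LTG.W1.Main

/-!
# Langlands-Tunnell in weight one

A surjective representation to `GL₂(𝔽₃)` with its lift is realised by a weight one eigensystem:
`LTG/Final` assembles theta series (`LTG/Theta`), hyperbolic densities (`LTG/Hyp`), the comparison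
of systems in the cubic descent (`LTG/Sys`) and the passage to weight one (`LTG/W1`).
-/

set_option autoImplicit false
open AutomorphicForm FLT.ExplicitLift EisensteinWeightOne open WeierstrassCurve
open scoped MatrixGroups
local notation "Γℚ" => (AlgebraicClosure ℚ ≃ₐ[ℚ] AlgebraicClosure ℚ)
open LanglandsTunnell

namespace Fermat.Agent.S47

theorem result
    (ρ : Γℚ →* GL (Fin 2) (ZMod 3)) (hρ : Continuous ρ) (hsurj : Function.Surjective ρ)
    (hdet : ∀ σ : Γℚ, Matrix.GeneralLinearGroup.det (ρ σ) = modThreeCyclotomicChar σ)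
    (Ψ : GL (Fin 2) (ZMod 3) →* GL (Fin 2) (ℤ√(-2)))
    (hΨ : ∀ g, Matrix.GeneralLinearGroup.map red (Ψ g) = g) :
    ∃ (N : ℕ) (_ : NeZero N) (b : ℕ → ℤ√(-2)),
      FormalHecke.IsEigensystem
        (fun ℓ => if ℓ ∣ N then 0 else ((chiNegThree ℓ : ℤ) : ℤ√(-2))) b ∧
      CuspForm.IsWeightOneChiNegThreeRealized N b ∧
      ∀ p : ℕ, p.Prime → ¬ p ∣ 3 * N →
        ∀ A : ValuationSubring (AlgebraicClosure ℚ), A.LiesOverPrime p →
          ∀ σ : Γℚ, A.IsFrobeniusAt σ p →
            b p = ((Ψ (ρ σ) : GL (Fin 2) (ℤ√(-2))) : Matrix (Fin 2) (Fin 2) (ℤ√(-2))).trace :=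
  Fermat.LTG.realised_of_parts Fermat.LTG.thetaStatement
    (fun K L _ _ _ _ _ => Fermat.LTG.hypStatement K L) Fermat.LTG.Sys.sysStatement
    Fermat.LTG.ofKFormStatement
    ⟨hρ, hsurj, hdet⟩ hΨ

end Fermat.Agent.S47
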