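-- Row 44: FLT.AbstractIntegralStructure.exists_weight_two_eigenform_congruent_of_isLatticeRealized.
import Fermat.Statements.S49
import Fermat.Agent.S01
import Fermat.Agent.GR.Lifting.EigenformLift

/-!
# Lifting an eigensystem modulo three to an eigenform

A system realised in the integral lattice is congruent to a weight two eigenform, by
`GR/Lifting/EigenformLift`.
-/

set_option autoImplicit false
open CuspForm EisensteinWeightOne CongruenceSubgroup ModularFormClass
open FLT FLT.AbstractIntegralStructure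

namespace Fermat.Agent.S49

theorem result
    {N : ℕ} [NeZero N] (h : CuspForm.HasIntegralBasis N) {a : ℕ → ℤ}
    (heig : FormalHecke.IsEigensystem
      (fun ℓ => if ℓ ∣ N then 0 else ((chiNegThree ℓ : ℤ) : ℤ)) a)
    (hreal : CuspForm.IsLatticeRealized N a) :
    ∃ (f : CuspForm (Gamma0 N) 2) (_ : f.IsNormalizedEigenform)
      (𝔪' : Ideal (integralClosure ℤ ℂ)), 𝔪'.IsMaximal ∧
      ((3 : ℕ) : integralClosure ℤ ℂ) ∈ 𝔪' ∧
      ∀ (ℓ : ℕ) (_ : ℓ.Prime) (_ : ¬ ℓ ∣ N),
        ∃ c : integralClosure ℤ ℂ, (c : ℂ) = ModularFormClass.qCoeff f ℓ ∧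
          c - (a ℓ : integralClosure ℤ ℂ) ∈ 𝔪' :=
  Fermat.GR.Lifting.exists_eigenform_congruent h heig hreal

end Fermat.Agent.S49
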