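-- Row 42:
-- WeierstrassCurve.isResiduallyModular_three_and_noInertiaFixedTorsion_and_not_cube_dvd_of
--   _isSemistableModel.
import Fermat.Statements.S50
import Fermat.Agent.S01
import Fermat.Agent.Top.Rows.Inputs
import Fermat.Agent.Top.Rows.Exact

/-!
# Residual modularity at three

From the modularity of all semistable curves at the conductor level (`Top/Rows/Exact`,
`exact_of_inputs`), so irreducibility of the three torsion is not used.
-/

set_option autoImplicit false
open WeierstrassCurve WeierstrassCurve.Affine WeierstrassCurve.Affine.Point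
open scoped WeierstrassCurve.Affine
open WeierstrassCurve

namespace Fermat.Agent.S50

theorem result
    (W : WeierstrassCurve ℤ) (hΔ : W.Δ ≠ 0) (hW : W.IsSemistableModel)
    (h3 : W.ModRepIsIrreducible 3) :
    ∃ M : ℕ, 0 < M ∧ W.IsResiduallyModularOfLevel 3 M ∧
      (∀ q : ℕ, q.Prime → q ≠ 3 → ¬ q ^ 3 ∣ M) ∧
      (3 ^ 2 ∣ M →
        ∀ A : ValuationSubring (AlgebraicClosure ℚ), A.LiesOverPrime 3 →
          ∀ x : Submodule.torsionBy ℤ
              ((W.map (Int.castRingHom ℚ))⁄(AlgebraicClosure ℚ)).Point (3 : ℕ),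
            (∀ σ ∈ A.inertiaSubgroupIn ℚ, σ • x = x) → x = 0) := by
  have : Fact (Nat.Prime 3) := ⟨Nat.prime_three⟩
  have : Fact (Nat.Prime 5) := ⟨by norm_num⟩
  exact Fermat.Top.Rows.residuallyModular_three_of_inputs (Fermat.Top.Rows.liftingSf 3)
    (Fermat.Top.Rows.liftingSf 5) (Fermat.Top.Rows.newInput 3) (Fermat.Top.Rows.newInput 5)
      (Fermat.Top.Rows.ordInput 3) W hΔ hW

end Fermat.Agent.S50
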