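-- Row 45: WeierstrassCurve.modThreeOrFiveIrreducible.
import Fermat.Statements.S51
import Fermat.Agent.EC.Level35
import Fermat.Agent.EC.X015

/-!
# The three or the five torsion is irreducible

Stable lines of both orders give parameters (`EC/Level35`) solving the equation in `EC/X015`, and
each of its four rational solutions contradicts semistability at five (`absurd_at_five` there).
Used by `Top/Modularity`.
-/

set_option autoImplicit false
open WeierstrassCurve WeierstrassCurve.Affine WeierstrassCurve.Affine.Point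
open CuspForm ModularFormClass UpperHalfPlane
open WeierstrassCurve

namespace Fermat.Agent.S51

theorem result (W : WeierstrassCurve ℤ) (hΔ : W.Δ ≠ 0) (hW : W.IsSemistableModel) : W.ModRepIsIrreducible 3 ∨ W.ModRepIsIrreducible 5 := by
  by_contra hc
  push Not at hc
  obtain ⟨h3, h5⟩ := hc
  obtain ⟨t, ht0, ht⟩ := Fermat.EC.Level.exists_t W hΔ h3
  obtain ⟨s, hs0, hs⟩ := Fermat.EC.Level.exists_s W hΔ h5
  have hD : (W.Δ : ℚ) ≠ 0 := Int.cast_ne_zero.mpr hΔ
  have key : 27 * (t + 1) * (t + 9) ^ 3 * s = t ^ 3 * (s ^ 2 + 10 * s + 5) ^ 3 := by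
    apply mul_left_cancel₀ hD
    linear_combination s * ht + t ^ 3 * hs
  have hss : (5 : ℤ) ∣ W.Δ → ¬ (5 : ℤ) ∣ W.c₄ := fun h => by
    exact_mod_cast hW 5 Nat.prime_five (by exact_mod_cast h)
  rcases Fermat.EC.X015.s_cases hs0 ht0 key with e | e | e | e <;> subst e
  · refine Fermat.EC.X015.absurd_at_five (e := 32768) (f := 9393931) (i := 1) le_rfl one_le_two hss
      (by norm_num) (by norm_num) (c := W.c₄) (D := W.Δ) ?_
    have : (32768 : ℚ) * (W.c₄ : ℚ) ^ 3 = 5 ^ 1 * 9393931 * (W.Δ : ℚ) := by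
      linear_combination (-(32768 : ℚ) * 8 / 25) * hs
    exact_mod_cast this
  · refine Fermat.EC.X015.absurd_at_five (e := -2) (f := 1) (i := 2) one_le_two le_rfl hss
      (by norm_num) (by norm_num) (c := W.c₄) (D := W.Δ) ?_
    have : (-2 : ℚ) * (W.c₄ : ℚ) ^ 3 = 5 ^ 2 * 1 * (W.Δ : ℚ) := by
      linear_combination (1 / 5 : ℚ) * hs
    exact_mod_cast this
  · refine Fermat.EC.X015.absurd_at_five (e := -32) (f := 24389) (i := 1) le_rfl one_le_two hss
      (by norm_num) (by norm_num) (c := W.c₄) (D := W.Δ) ?_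
    have : (-32 : ℚ) * (W.c₄ : ℚ) ^ 3 = 5 ^ 1 * 24389 * (W.Δ : ℚ) := by
      linear_combination (64 / 25 : ℚ) * hs
    exact_mod_cast this
  · refine Fermat.EC.X015.absurd_at_five (e := -8) (f := 13997521) (i := 2) one_le_two le_rfl hss
      (by norm_num) (by norm_num) (c := W.c₄) (D := W.Δ) ?_
    have : (-8 : ℚ) * (W.c₄ : ℚ) ^ 3 = 5 ^ 2 * 13997521 * (W.Δ : ℚ) := by
      linear_combination (1 / 5 : ℚ) * hs
    exact_mod_cast this

end Fermat.Agent.S51
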