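-- Row 51: Algebra.PatchingLevel.free_and_ker_eq_span.
import Fermat.Statements.S57
import Fermat.Agent.S01
import Fermat.Agent.GR.CommAlg.PatchingLevel

/-!
# Patching: the descent step

The patched module is free and faithful, and the kernel is as stated
(`GR/CommAlg/PatchingLevel`): the lifted module is free over the power series ring, as the
parameters form a regular sequence.
-/

set_option autoImplicit false
open Algebra Algebra.PatchingLevel

namespace Fermat.Agent.S57

theorem result
    {𝒪 : Type} [CommRing 𝒪] [IsDomain 𝒪] [IsDiscreteValuationRing 𝒪]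
    {r : ℕ} {R : Type} [CommRing R] [Algebra 𝒪 R]
    {M : Type} [AddCommGroup M] [Module R M] [Nontrivial M]
    (L : Algebra.PatchingLevel 𝒪 r R M ⊥) :
    Module.Free R M ∧ Module.annihilator R M = ⊥ ∧
      RingHom.ker L.ψ = Ideal.span (Set.range fun i : Fin r => L.φ (MvPowerSeries.X i)) :=
  ⟨Fermat.GR.PatchingStep.free L, Fermat.GR.PatchingStep.annihilator_eq_bot L,
    Fermat.GR.PatchingStep.ker_eq_varIdeal L⟩

end Fermat.Agent.S57
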