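-- Row 52:
-- WeierstrassCurve.isModularModelOfLevel_conductorLevel_of_not_cube_dvd_of
--   _modRepIsIrreducible_of_not_sq_dvd.
import Fermat.Statements.S58
import Fermat.Agent.S01
import Fermat.Agent.Top.Rows.Inputs
import Fermat.Agent.Top.Rows.Exact

/-!
# Modularity at the conductor level

Every semistable curve is modular at its conductor level (`Top/Rows/Exact`, `exact_of_inputs`); the
hypotheses on `N` only serve to show that the discriminant is nonzero, and those on `p` are not
used.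
-/

set_option autoImplicit false
open WeierstrassCurve

namespace Fermat.Agent.S58

theorem result
    (W : WeierstrassCurve ℤ) (hss : W.IsSemistableModel) (N : ℕ)
    (p : ℕ) [Fact p.Prime] (hp2 : p ≠ 2) (hirr : W.ModRepIsIrreducible p)
    (hp2N : ¬ p ^ 2 ∣ N)
    (hN : W.IsModularModelOfLevel N) (hbad : ∀ ℓ : ℕ, ℓ.Prime → (ℓ : ℤ) ∣ W.Δ → ℓ ∣ N)
    (hN3 : ∀ q : ℕ, q.Prime → ¬ q ^ 3 ∣ N) :
    W.IsModularModelOfLevel W.conductorLevel := by
  have : Fact (Nat.Prime 3) := ⟨Nat.prime_three⟩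
  have : Fact (Nat.Prime 5) := ⟨by norm_num⟩
  exact Fermat.Top.Rows.conductorLevel_of_inputs (Fermat.Top.Rows.liftingSf 3)
    (Fermat.Top.Rows.liftingSf 5) (Fermat.Top.Rows.newInput 3) (Fermat.Top.Rows.newInput 5)
      (Fermat.Top.Rows.ordInput 3) W
      (Fermat.Top.Rows.Δ_ne_zero_of_prime_dvd (fun e => hN3 2 Nat.prime_two (by simp [e])) hbad) hss

end Fermat.Agent.S58
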