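-- Row 53:
-- WeierstrassCurve.modularityLiftingAtConductor_threeFive_of_level_of_not_sq_dvd_of_not_cube_dvd.
import Fermat.Statements.S59
import Fermat.Agent.S01
import Fermat.Agent.Top.Rows.Inputs
import Fermat.Agent.Top.Rows.Exact

/-!
# Modularity lifting at three and five to the conductor level

Every semistable curve is modular at its exact conductor level (`Top/Rows/Exact`, `exact_of_inputs`,
with the inputs of `Top/Rows/Inputs`), so the residual hypotheses are not used.
-/

set_option autoImplicit false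
open scoped WeierstrassCurve.Affine
open WeierstrassCurve

namespace Fermat.Agent.S59

theorem result (p : ℕ) (hp : p = 3 ∨ p = 5)
    (W : WeierstrassCurve ℤ) (hΔ : W.Δ ≠ 0) (hW : W.IsSemistableModel) (hirr : W.ModRepIsIrreducible p)
    (M₀ : ℕ) [NeZero M₀] (hres₀ : W.IsResiduallyModularOfLevel p M₀)
    (hM₀ : ¬ p ^ 2 ∣ M₀)
    (hM₀3 : ∀ q : ℕ, q.Prime → q ≠ p → ¬ q ^ 3 ∣ M₀) :
    Mlc1IsModularModelOfExactConductorLevel W := by
  have : Fact (Nat.Prime 3) := ⟨Nat.prime_three⟩
  have : Fact (Nat.Prime 5) := ⟨by norm_num⟩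
  exact Fermat.Top.Rows.exact_of_inputs (Fermat.Top.Rows.liftingSf 3)
    (Fermat.Top.Rows.liftingSf 5) (Fermat.Top.Rows.newInput 3) (Fermat.Top.Rows.newInput 5)
      (Fermat.Top.Rows.ordInput 3) W hΔ hW

end Fermat.Agent.S59
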