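-- Row 54: WeierstrassCurve.modularity_of_semistableModel.
import Fermat.Statements.S60
import Fermat.Agent.S01
import Fermat.Agent.Top.Rows.Inputs
import Fermat.Agent.Top.Rows.Modular

/-!
# Semistable curves are modular

Lifting at three and five with residual modularity at three: `Top/Rows/Modular` with the inputs of
`Top/Rows/Inputs`.
-/

set_option autoImplicit false
open WeierstrassCurve WeierstrassCurve.Affine WeierstrassCurve.Affine.Point
open CuspForm ModularFormClass UpperHalfPlane
open WeierstrassCurve

namespace Fermat.Agent.S60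

theorem result (W : WeierstrassCurve ℤ) (hΔ : W.Δ ≠ 0) (hW : W.IsSemistableModel) : (W.map (Int.castRingHom ℚ)).IsModular := by
  have : Fact (Nat.Prime 3) := ⟨Nat.prime_three⟩
  have : Fact (Nat.Prime 5) := ⟨by norm_num⟩
  exact Fermat.Top.Rows.isModular_of_inputs (Fermat.Top.Rows.liftingSf 3)
    (Fermat.Top.Rows.liftingSf 5) (Fermat.Top.Rows.newInput 3) (Fermat.Top.Rows.ordInput 3) W hΔ hW

end Fermat.Agent.S60
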